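/-
S26 / block V, node Pic (V1-V4; architect helper171): DEFINITIONS (all proved).

* `CD.pull`        : pull-back of fractional Cartier data along a morphism with a function field map
* `CD.pow`         : powers of fractional Cartier data
* `ECD.mul`, `ECD.pull` : product and pull-back of effective Cartier data
-/
import Fermat.Agent.S26.V.Sys

set_option autoImplicit false

universe u

open CategoryTheory CategoryTheory.Limits AlgebraicGeometry NeronModelInfra GoodReductionJacobian

noncomputable section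

namespace Fermat.Agent.S26.V.Pic

/-! ### transport of regularity along function field maps -/

section FnMap

variable {X Y : Scheme.{u}} [IsIntegral X] [IsIntegral Y] {φ : X ⟶ Y}
  {ψ : Y.functionField →+* X.functionField}

theorem IsFnMap.isRegAt (h : IsFnMap φ ψ) {x : X} {u : Y.functionField} (hu : IsRegAt (φ x) u) :
    IsRegAt x (ψ u) := by
  obtain ⟨a, rfl⟩ := hu
  exact ⟨(φ.stalkMap x).hom a, (h x a).symm⟩

theorem IsFnMap.isUnitAt (h : IsFnMap φ ψ) {x : X} {u : Y.functionField} (hu : IsUnitAt (φ x) u) :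
    IsUnitAt x (ψ u) := by
  obtain ⟨a, ha, rfl⟩ := hu
  exact ⟨(φ.stalkMap x).hom a, ha.map _, (h x a).symm⟩

end FnMap

/-! ### Cartier data -/

section Cartier

variable {T' T : Scheme.{u}} [IsIntegral T'] [IsIntegral T]

theorem CD.ext' {D D' : CD T} (h : ∀ x, D.θ x = D'.θ x) : D = D' := by
  cases D; cases D'
  congr
  exact funext h

/-- pull-back of fractional Cartier data along a morphism with a function field map -/
def CD.pull (φ : T' ⟶ T) (ψ : T.functionField →+* T'.functionField) (h : IsFnMap φ ψ) (D : CD T) :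
    CD T' where
  θ := fun x' => ψ (D.θ (φ x'))
  ne := fun x' => (map_ne_zero ψ).2 (D.ne _)
  coh := fun x' => by
    obtain ⟨U, hxU, hU⟩ := D.coh (φ x')
    refine ⟨φ ⁻¹ᵁ U, hxU, fun y' hy' => ?_⟩
    rw [← map_div₀]
    exact IsFnMap.isUnitAt h (hU (φ y') hy')

@[simp] theorem CD.pull_θ (φ : T' ⟶ T) (ψ : T.functionField →+* T'.functionField)
    (h : IsFnMap φ ψ) (D : CD T) (x' : T') : (CD.pull φ ψ h D).θ x' = ψ (D.θ (φ x')) := rfl

/-- powers of fractional Cartier data -/
def CD.pow (D : CD T) : ℕ → CD T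
  | 0 => 1
  | m + 1 => CD.pow D m * D

@[simp] theorem CD.pow_θ (D : CD T) (m : ℕ) (x : T) : (CD.pow D m).θ x = D.θ x ^ m := by
  induction m with
  | zero => simp [CD.pow]
  | succ m ih => simp [CD.pow, ih, pow_succ]

/-- the product of effective Cartier data -/
def ECD.mul (D D' : ECD T) : ECD T where
  θ := fun x => D.θ x * D'.θ x
  ne := fun x => mul_ne_zero (D.ne x) (D'.ne x)
  coh := fun x => by
    obtain ⟨U, hxU, hU⟩ := D.coh x
    obtain ⟨U', hxU', hU'⟩ := D'.coh x
    refine ⟨U ⊓ U', ⟨hxU, hxU'⟩, fun y hy => ?_⟩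
    rw [map_mul, map_mul, mul_div_mul_comm]
    exact (hU y hy.1).mul (hU' y hy.2)

theorem ECD.mul_toCD (D D' : ECD T) : (ECD.mul D D').toCD = D.toCD * D'.toCD :=
  CD.ext' fun _ => map_mul _ _ _

/-- pull-back of effective Cartier data along a morphism with a function field map -/
def ECD.pull (φ : T' ⟶ T) (ψ : T.functionField →+* T'.functionField) (h : IsFnMap φ ψ)
    (D : ECD T) : ECD T' where
  θ := fun x' => (φ.stalkMap x').hom (D.θ (φ x'))
  ne := fun x' hx' => by
    have h1 := h x' (D.θ (φ x'))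
    rw [hx', map_zero] at h1
    exact D.toCD.ne (φ x') ((map_eq_zero ψ).1 h1)
  coh := fun x' => by
    obtain ⟨U, hxU, hU⟩ := D.coh (φ x')
    refine ⟨φ ⁻¹ᵁ U, hxU, fun y' hy' => ?_⟩
    rw [← h, ← h, ← map_div₀]
    exact IsFnMap.isUnitAt h (hU (φ y') hy')

theorem ECD.isPull_pull (φ : T' ⟶ T) (ψ : T.functionField →+* T'.functionField)
    (h : IsFnMap φ ψ) (D : ECD T) : ECD.IsPull φ D (ECD.pull φ ψ h D) := fun _ => rfl

theorem ECD.pull_toCD (φ : T' ⟶ T) (ψ : T.functionField →+* T'.functionField)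
    (h : IsFnMap φ ψ) (D : ECD T) : (ECD.pull φ ψ h D).toCD = CD.pull φ ψ h D.toCD :=
  CD.ext' fun x' => (h x' _).symm

end Cartier

end Fermat.Agent.S26.V.Pic

end
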