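/-
S26 / block V, node Pic (V1-V4; architect helper171), leaf PIC-CL: calculus of classes of Cartier
data; the symmetric Cartier data.
-/
import Fermat.Agent.S26.V.Pic.Data
import Fermat.Agent.S26.V.Grp

set_option autoImplicit false

universe u

open CategoryTheory CategoryTheory.Limits AlgebraicGeometry NeronModelInfra GoodReductionJacobian

noncomputable section

namespace Fermat.Agent.S26.V.Pic

variable {K : Type u} [Field K] (PB : PicBase K)

/-- (`1 * 1 = 1` by `CD.ext'`, `PB.cl_mul`.) -/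
theorem cl_one {T : Scheme.{u}} [IsIntegral T] : PB.cl (1 : CD T) = 0 := by
  have h1 : (1 : CD T) * 1 = 1 := CD.ext' (by simp)
  have h2 := PB.cl_mul (1 : CD T) 1
  rw [h1] at h2
  exact (left_eq_add.1 h2)

/-- (induction; `CD.pow D (m+1) = CD.pow D m * D` by `rfl`.) -/
theorem cl_pow {T : Scheme.{u}} [IsIntegral T] (D : CD T) (m : ℕ) :
    PB.cl (CD.pow D m) = m • PB.cl D := by
  induction m with
  | zero => rw [zero_smul]; exact cl_one PB
  | succ m ih =>
    have h1 : CD.pow D (m + 1) = CD.pow D m * D := rfl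
    rw [h1, PB.cl_mul, ih, succ_nsmul]

/-- (`PB.cl_pull` with `ECD.isPull_pull`, `ECD.pull_toCD`.) -/
theorem pull_cl {T' T : Scheme.{u}} [IsIntegral T'] [IsIntegral T] (φ : T' ⟶ T)
    (ψ : T.functionField →+* T'.functionField) (h : IsFnMap φ ψ) (D : ECD T) :
    PB.pull φ (PB.cl D.toCD) = PB.cl (CD.pull φ ψ h D.toCD) := by
  rw [PB.cl_pull φ D (ECD.pull φ ψ h D) (ECD.isPull_pull φ ψ h D), ECD.pull_toCD]

variable {A : Scheme.{u}} [IsIntegral A] {f : A ⟶ SpK K} (L : RelativeGroupLaw K f)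

/-- the symmetric Cartier data `D₀ + [-1]^* D₀` -/
def symD (D₀ : ECD A) (ι : A.functionField →+* A.functionField) (hι : IsFnMap (neg L) ι) :
    ECD A :=
  ECD.mul D₀ (ECD.pull (neg L) ι hι D₀)

/-- **V2.** (`cl (symD) = ξ₀ + pull [-1] ξ₀` with `ξ₀ = cl D₀` by `ECD.mul_toCD`, `PB.cl_mul`,
`ECD.pull_toCD`, `pull_cl`; then `map_add`, `← PB.pull_comp`, `neg_neg`, `PB.pull_id`,
`add_comm`.) -/
theorem pull_neg_cl_symD (D₀ : ECD A) (ι : A.functionField →+* A.functionField)
    (hι : IsFnMap (neg L) ι) :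
    PB.pull (neg L) (PB.cl (symD L D₀ ι hι).toCD) = PB.cl (symD L D₀ ι hι).toCD := by
  unfold symD
  rw [ECD.mul_toCD, PB.cl_mul, map_add, ECD.pull_toCD, ← pull_cl PB (neg L) ι hι D₀,
    ← PB.pull_comp, neg_neg, PB.pull_id, add_comm]

end Fermat.Agent.S26.V.Pic

end
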