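/-
S26 / block V, node Pic (V1-V4; architect helper171), leaf PIC-FORMAL (Mathlib only): the formal consequences of the
vanishing of the third difference of a map `q : G → P` from a commutative group (written
multiplicatively) to an additive commutative group.
-/
import Mathlib

set_option autoImplicit false

namespace Fermat.Agent.S26.V.Pic

variable {G P : Type*} [CommGroup G] [AddCommGroup P]

/-- the third difference of `q` -/
def Theta (q : G → P) (x y z : G) : P :=
  q (x * y * z) - q (x * y) - q (x * z) - q (y * z) + q x + q y + q z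

/-- (unfold; all the arguments of `q` are normalised by `mul_assoc`, `mul_comm`,
`mul_left_comm`; then `abel`.) -/
theorem Theta_mul (q : G → P) (x x' y z : G) :
    Theta q (x * x') y z = Theta q x (x' * y) z + Theta q x' y z - Theta q x x' z := by
  unfold Theta
  have e1 : x * x' * y * z = x * (x' * y) * z := by rw [mul_assoc x x' y]
  have e2 : x * x' * y = x * (x' * y) := mul_assoc x x' y
  rw [e1, e2]
  abel

theorem Theta_one (q : G → P) (h0 : q 1 = 0) (y z : G) : Theta q 1 y z = 0 := by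
  unfold Theta
  simp only [one_mul]
  rw [h0]
  abel

/-- (`Theta q s (s ^ k) s⁻¹ = 0` reads `q (s^(k+1)) + q (s^(k-1)) = 2 q (s^k) + 2 q s`;
two-step induction on `k`.) -/
theorem formal_quadratic (q : G → P) (h0 : q 1 = 0) (hsym : ∀ x, q x⁻¹ = q x) (s : G)
    (hs : ∀ y z, Theta q s y z = 0) (k : ℕ) : q (s ^ k) = (k ^ 2) • q s := by
  have step : ∀ k : ℕ, q (s ^ (k + 2)) = 2 • q (s ^ (k + 1)) + 2 • q s - q (s ^ k) := by
    intro k
    have h := hs (s ^ (k + 1)) s⁻¹
    unfold Theta at h
    have e1 : s * s ^ (k + 1) * s⁻¹ = s ^ (k + 1) := by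
      rw [mul_comm s, mul_inv_cancel_right]
    have e2 : s * s ^ (k + 1) = s ^ (k + 2) := by rw [← pow_succ']
    have e3 : s ^ (k + 1) * s⁻¹ = s ^ k := by rw [pow_succ, mul_inv_cancel_right]
    rw [e1, e2, mul_inv_cancel, e3, h0, hsym] at h
    have h' : q (s ^ (k + 2)) - (2 • q (s ^ (k + 1)) + 2 • q s - q (s ^ k)) =
        -(q (s ^ (k + 1)) - q (s ^ (k + 2)) - 0 - q (s ^ k) + q s + q (s ^ (k + 1)) + q s) := by
      abel
    rw [h, neg_zero] at h'
    exact sub_eq_zero.1 h'
  have main : ∀ k : ℕ, q (s ^ k) = (k ^ 2) • q s ∧ q (s ^ (k + 1)) = ((k + 1) ^ 2) • q s := by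
    intro k
    induction k with
    | zero => exact ⟨by simp [h0], by simp⟩
    | succ k ih =>
      refine ⟨ih.2, ?_⟩
      rw [step k, ih.1, ih.2, sub_eq_iff_eq_add, smul_smul, ← add_smul, ← add_smul]
      congr 1
      ring
  exact (main k).1

/-- (`Theta q s a a⁻¹ = 0`.) -/
theorem formal_square (q : G → P) (h0 : q 1 = 0) (s a : G) (hs : ∀ y z, Theta q s y z = 0)
    (ha : q a = 0) (ha' : q a⁻¹ = 0) : q (s * a) + q (s * a⁻¹) = 2 • q s := by
  have h := hs a a⁻¹
  unfold Theta at h
  rw [mul_inv_cancel_right, mul_inv_cancel, h0, ha, ha'] at h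
  have h' : q (s * a) + q (s * a⁻¹) = q s + q s - (q s - q (s * a) - q (s * a⁻¹) - 0 + q s + 0 + 0) := by
    abel
  rw [h', h, sub_zero, two_smul]

end Fermat.Agent.S26.V.Pic
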