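/-
S26 / block V, node Pic (V1-V4; architect helper171), leaf PIC-REL: the relations (Lin) and (Square)
in the Picard group of `T`, for a `T`-point `s` of `A` which is a sum of points factoring through
curves.

Method: put on `SchemeHomOver t f` the commutative group structure
`letI : CommGroup (SchemeHomOver t f) := { L.pointGroup t with mul_comm := hc t }`, let
`q x := PT.pull x.1 ξ` and apply `V/Pic/Formal.lean`; `x * y` is `L.mul t x y` by `rfl`,
`x⁻¹` is `L.inv t x`, `1` is `L.one t`, and `x ^ m = L.nsmul t m x` by induction (`pow_succ`).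
Black boxes: `V/Grp.lean` (`comp_trans`, `comp_neg`, `comp_nsmul`).
-/
import Fermat.Agent.S26.V.Pic.Formal
import Fermat.Agent.S26.V.Grp

set_option autoImplicit false
set_option linter.style.haveILetI false

universe u

open CategoryTheory CategoryTheory.Limits AlgebraicGeometry NeronModelInfra GoodReductionJacobian

namespace Fermat.Agent.S26.V.Pic

variable {K : Type u} [Field K] {A : Scheme.{u}} {f : A ⟶ SpK K} {L : RelativeGroupLaw K f}

/-- (`L.one_natural (𝟙 _) t t (Category.comp_id t)`, `Subtype.ext`.) -/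
theorem one_eq_constPt (L : RelativeGroupLaw K f) {T : Scheme.{u}} (t : T ⟶ SpK K) :
    L.one t = constPt f t (L.one (𝟙 (SpK K))) :=
  (L.one_natural (𝟙 (SpK K)) t t (Category.comp_id t)).symm

/-- (`constPt f t a = schemeHomOverComp t (Category.comp_id t) a`; a map compatible with `mul` and
`one` between groups is compatible with `inv`: `mul_natural`, `one_natural`, uniqueness of inverses
in `L.pointGroup t`.) -/
theorem inv_constPt (L : RelativeGroupLaw K f) {T : Scheme.{u}} (t : T ⟶ SpK K) (a : KPt f) :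
    L.inv t (constPt f t a) = constPt f t (L.inv (𝟙 (SpK K)) a) :=
  (grp_constPt_inv L t a).symm

variable (PT : PicTheory K f L)

/-- (`(constPt f t a).1 = t ≫ a.1` by `rfl`, `PT.pull_comp`, `PT.pic_point`, `map_zero`.) -/
theorem pull_constPt {T : Scheme.{u}} (t : T ⟶ SpK K) (a : KPt f) (ξ : PT.Pic A) :
    PT.pull (constPt f t a).1 ξ = 0 := by
  show PT.pull (t ≫ a.1) ξ = 0
  rw [PT.pull_comp, PT.pic_point (PT.pull a.1 ξ), map_zero]

/-- the commutative group of `T`-points -/
@[reducible] def ptCommGroup (hc : L.IsCommutative) {T : Scheme.{u}} (t : T ⟶ SpK K) :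
    CommGroup (SchemeHomOver t f) :=
  { L.pointGroup t with mul_comm := hc t }

theorem pull_one {T : Scheme.{u}} (t : T ⟶ SpK K) (ξ : PT.Pic A) : PT.pull (L.one t).1 ξ = 0 := by
  rw [one_eq_constPt, pull_constPt]

theorem nsmul_eq_pow (L : RelativeGroupLaw K f) {T : Scheme.{u}} (t : T ⟶ SpK K) (m : ℕ)
    (x : SchemeHomOver t f) :
    letI := L.pointGroup t
    L.nsmul t m x = x ^ m := by
  letI := L.pointGroup t
  induction m with
  | zero => rfl
  | succ m ih =>
    rw [RelativeGroupLaw.nsmul_succ, ih, pow_succ]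
    rfl

theorem Theta_eq_zero_of_curveGen (hc : L.IsCommutative) {T : Scheme.{u}} (t : T ⟶ SpK K)
    (s : SchemeHomOver t f) (hs : CurveGen K f L t s) (ξ : PT.Pic A) :
    letI := ptCommGroup hc t
    ∀ y z : SchemeHomOver t f, Theta (fun x : SchemeHomOver t f => PT.pull x.1 ξ) s y z = 0 := by
  letI := ptCommGroup hc t
  induction hs with
  | one => exact Theta_one _ (pull_one PT t ξ)
  | mul x y _ _ hx hy =>
    intro y' z'
    have h := Theta_mul (fun x : SchemeHomOver t f => PT.pull x.1 ξ) x y y' z'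
    rw [hx, hy, hx] at h
    rw [show L.mul t x y = x * y from rfl, h]
    abel
  | curve c o γ h p => exact fun y z => PT.cube c o γ h ξ t p y z

/-- **V1.** (induction on `CurveGen`: `one` by `Theta_one` (`q 1 = 0` by `one_eq_constPt`,
`pull_constPt`), `mul` by `Theta_mul`, `curve` by `PT.cube`.) -/
theorem cube_of_curveGen (hc : L.IsCommutative) {T : Scheme.{u}} (t : T ⟶ SpK K)
    (s : SchemeHomOver t f) (hs : CurveGen K f L t s) (ξ : PT.Pic A) (y z : SchemeHomOver t f) :
    PT.pull (L.mul t (L.mul t s y) z).1 ξ - PT.pull (L.mul t s y).1 ξ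
      - PT.pull (L.mul t s z).1 ξ - PT.pull (L.mul t y z).1 ξ
      + PT.pull s.1 ξ + PT.pull y.1 ξ + PT.pull z.1 ξ = 0 :=
  Theta_eq_zero_of_curveGen PT hc t s hs ξ y z

/-- **(Lin)** (`formal_quadratic` with `cube_of_curveGen`; symmetry of `q` by `comp_neg`,
`PT.pull_comp`, `hξ`; `comp_nsmul`.) -/
theorem pull_nsmul (hc : L.IsCommutative) {T : Scheme.{u}} (t : T ⟶ SpK K)
    (s : SchemeHomOver t f) (hs : CurveGen K f L t s) (ξ : PT.Pic A)
    (hξ : PT.pull (neg L) ξ = ξ) (m : ℕ) :
    PT.pull (s.1 ≫ L.schemeNsmul m) ξ = (m ^ 2) • PT.pull s.1 ξ := by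
  letI := ptCommGroup hc t
  have hsym : ∀ x : SchemeHomOver t f, PT.pull (x⁻¹).1 ξ = PT.pull x.1 ξ := by
    intro x
    show PT.pull (L.inv t x).1 ξ = PT.pull x.1 ξ
    rw [← comp_neg, PT.pull_comp, hξ]
  have h := formal_quadratic (fun x : SchemeHomOver t f => PT.pull x.1 ξ) (pull_one PT t ξ) hsym s
    (Theta_eq_zero_of_curveGen PT hc t s hs ξ) m
  have e : s ^ m = L.nsmul t m s := (nsmul_eq_pow L t m s).symm
  rw [e] at h
  rw [comp_nsmul]
  exact h

/-- **(Square)** (`formal_square` with `a := constPt f t a`; `inv_constPt`, `pull_constPt`,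
`comp_trans`.) -/
theorem pull_square (hc : L.IsCommutative) {T : Scheme.{u}} (t : T ⟶ SpK K)
    (s : SchemeHomOver t f) (hs : CurveGen K f L t s) (ξ : PT.Pic A) (a : KPt f) :
    PT.pull (s.1 ≫ trans L a) ξ + PT.pull (s.1 ≫ trans L (L.inv (𝟙 (SpK K)) a)) ξ =
      2 • PT.pull s.1 ξ := by
  letI := ptCommGroup hc t
  have e : (constPt f t a)⁻¹ = constPt f t (L.inv (𝟙 (SpK K)) a) := inv_constPt L t a
  have h := formal_square (fun x : SchemeHomOver t f => PT.pull x.1 ξ) (pull_one PT t ξ) s
    (constPt f t a) (Theta_eq_zero_of_curveGen PT hc t s hs ξ) (pull_constPt PT t a ξ)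
    (by rw [e]; exact pull_constPt PT t _ ξ)
  rw [e] at h
  rw [comp_trans, comp_trans]
  exact h

end Fermat.Agent.S26.V.Pic
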