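/-
S26 / block V, node Pic (V1-V4; architect helper171), leaf PIC-EXTRACT (= V4): from the relations
in the Picard group of `X'` to rational functions on `X'`.
-/
import Fermat.Agent.S26.V.Pic.Rel
import Fermat.Agent.S26.V.Pic.Cl

set_option autoImplicit false

universe u

open CategoryTheory CategoryTheory.Limits AlgebraicGeometry NeronModelInfra GoodReductionJacobian

namespace Fermat.Agent.S26.V.Pic

variable {K : Type u} [Field K] {A : Scheme.{u}} [IsIntegral A] {f : A ⟶ SpK K}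
  {L : RelativeGroupLaw K f}

/-- the class of `s^* E`; note `(CD.pull X.s.1 X.σ X.isFn E.toCD).θ x' = sθ X E x'` by `rfl`. -/
theorem pull_s_cl (PB : PicBase K) (X : CoverData K f L) (E : ECD A) :
    PB.pull X.s.1 (PB.cl E.toCD) = PB.cl (CD.pull X.s.1 X.σ X.isFn E.toCD) :=
  pull_cl PB _ _ _ E

/-- **(Lin), function form.**  (`ξ := cl D.toCD`; `PT.pull [m] ξ = cl Dm.toCD` by `PT.cl_pull`;
so `cl (s^* Dm) = pull s (pull [m] ξ) = pull (s ≫ [m]) ξ = m^2 • pull s ξ = m^2 • cl (s^* D)` by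
`pull_s_cl`, `PT.pull_comp`, `pull_nsmul` (with `X.gen`).  Hence
`cl (E₁ * (CD.pow E₂ (m^2))⁻¹) = 0` for `E₁ := CD.pull X.s.1 X.σ X.isFn Dm.toCD`,
`E₂ := CD.pull X.s.1 X.σ X.isFn D.toCD` (`PT.cl_mul`, `PT.cl_inv`, `cl_pow`);
`PT.isPrincipal_of_cl_eq_zero`; the local equation is `sθ X Dm x' * (sθ X D x' ^ (m^2))⁻¹`
(`CD.mul_θ`, `CD.inv_θ`, `CD.pow_θ`, `CD.pull_θ`); `mul_div_assoc`, `div_eq_mul_inv`.) -/
theorem exists_lin (PT : PicTheory K f L) (hc : L.IsCommutative) (X : CoverData K f L) (D : ECD A)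
    (hD : PT.pull (neg L) (PT.cl D.toCD) = PT.cl D.toCD) (m : ℕ) (Dm : ECD A)
    (hDm : ECD.IsPull (L.schemeNsmul m) D Dm) :
    ∃ h : X.X.functionField, h ≠ 0 ∧
      ∀ x' : X.X, IsUnitAt x' (h * sθ X Dm x' / sθ X D x' ^ (m ^ 2)) := by
  have h := pull_nsmul PT hc X.x X.s X.gen (PT.cl D.toCD) hD m
  rw [PT.pull_comp, PT.cl_pull _ D Dm hDm, pull_s_cl, pull_s_cl, ← cl_pow] at h
  have h0 : PT.cl (CD.pull X.s.1 X.σ X.isFn Dm.toCD *
      (CD.pow (CD.pull X.s.1 X.σ X.isFn D.toCD) (m ^ 2))⁻¹) = 0 := by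
    rw [PT.cl_mul, PT.cl_inv, h, add_neg_cancel]
  obtain ⟨h₀, hne, hu⟩ := PT.isPrincipal_of_cl_eq_zero _ h0
  refine ⟨h₀, hne, fun x' => ?_⟩
  have := hu x'
  rw [CD.mul_θ, CD.inv_θ, CD.pow_θ, ← div_eq_mul_inv, ← mul_div_assoc] at this
  exact this

/-- **(Square), function form.**  (same method with `pull_square`:
`cl (E₊ * E₋ * (CD.pow E 2)⁻¹) = 0`.) -/
theorem exists_square (PT : PicTheory K f L) (hc : L.IsCommutative) (X : CoverData K f L)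
    (D : ECD A) (a : KPt f) (Da Dma : ECD A) (hDa : ECD.IsPull (trans L a) D Da)
    (hDma : ECD.IsPull (trans L (L.inv (𝟙 (SpK K)) a)) D Dma) :
    ∃ h : X.X.functionField, h ≠ 0 ∧
      ∀ x' : X.X, IsUnitAt x' (h * (sθ X Da x' * sθ X Dma x') / sθ X D x' ^ 2) := by
  have h := pull_square PT hc X.x X.s X.gen (PT.cl D.toCD) a
  rw [PT.pull_comp, PT.pull_comp, PT.cl_pull _ D Da hDa, PT.cl_pull _ D Dma hDma, pull_s_cl,
    pull_s_cl, pull_s_cl, ← cl_pow] at h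
  have h0 : PT.cl (CD.pull X.s.1 X.σ X.isFn Da.toCD * CD.pull X.s.1 X.σ X.isFn Dma.toCD *
      (CD.pow (CD.pull X.s.1 X.σ X.isFn D.toCD) 2)⁻¹) = 0 := by
    rw [PT.cl_mul, PT.cl_mul, PT.cl_inv, h, add_neg_cancel]
  obtain ⟨h₀, hne, hu⟩ := PT.isPrincipal_of_cl_eq_zero _ h0
  refine ⟨h₀, hne, fun x' => ?_⟩
  have := hu x'
  rw [CD.mul_θ, CD.mul_θ, CD.inv_θ, CD.pow_θ, ← div_eq_mul_inv, ← mul_div_assoc] at this
  exact this

end Fermat.Agent.S26.V.Pic
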